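import Mathlib

set_option autoImplicit false

namespace Fermat.Agent.S49

open TensorProduct

theorem exists_common_eigenvector {V : Type*} [AddCommGroup V] [Module ℂ V] {R : Type*}
    [CommRing R] [Module.Finite ℤ R] (φ : R →+* Module.End ℂ V) (w₀ : V) (hw₀ : w₀ ≠ 0) :
    ∃ (w : V) (μ : R →+* ℂ), w ≠ 0 ∧ (∀ t, φ t w = μ t • w) ∧ ∀ t, φ t w₀ = 0 → μ t = 0 := by
  let A := ℂ ⊗[ℤ] R
  let Φ : A →ₐ[ℂ] Module.End ℂ V :=
    Algebra.TensorProduct.lift (Algebra.ofId ℂ _) φ.toIntAlgHom (fun c t => by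
      exact Algebra.commutes c _)
  have hΦ : ∀ t : R, Φ ((1 : ℂ) ⊗ₜ[ℤ] t) = φ t := by
    intro t
    exact (Algebra.TensorProduct.lift_tmul (Algebra.ofId ℂ (Module.End ℂ V)) φ.toIntAlgHom
      (fun c t => Algebra.commutes c _) (1 : ℂ) t).trans (by rw [map_one, one_mul]; rfl)
  let _ : Module A V := Module.compHom V Φ.toRingHom
  have hsmul : ∀ (a : A) (v : V), a • v = Φ a v := fun _ _ => rfl
  have : IsNoetherianRing A := IsNoetherianRing.of_finite ℂ A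
  obtain ⟨P, hP, hle⟩ := exists_le_isAssociatedPrime_of_isNoetherianRing A w₀ hw₀
  obtain ⟨hPprime, w, hw⟩ := isAssociatedPrime_iff.mp hP
  have hbij : Function.Bijective (algebraMap ℂ (A ⧸ P)) :=
    IsAlgClosed.algebraMap_bijective_of_isIntegral
  let e : ℂ ≃+* (A ⧸ P) := RingEquiv.ofBijective (algebraMap ℂ (A ⧸ P)) hbij
  let χ : A →+* ℂ := (e.symm : (A ⧸ P) →+* ℂ).comp (Ideal.Quotient.mk P)
  have hχ : ∀ a : A, a - algebraMap ℂ A (χ a) ∈ P := by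
    intro a
    rw [← Ideal.Quotient.eq]
    have : e (χ a) = Ideal.Quotient.mk P a := by simp [χ]
    rw [← this]
    rfl
  have hmem : ∀ a : A, a ∈ P ↔ Φ a w = 0 := by
    intro a
    rw [hw, Submodule.mem_colon_singleton, Submodule.mem_bot, hsmul]
  have hχ0 : ∀ a : A, a ∈ P → χ a = 0 := by
    intro a ha
    simp [χ, Ideal.Quotient.eq_zero_iff_mem.mpr ha]
  refine ⟨w, χ.comp (Algebra.TensorProduct.includeRight : R →ₐ[ℤ] A).toRingHom, ?_, ?_, ?_⟩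
  · rintro rfl
    apply hPprime.ne_top
    rw [Ideal.eq_top_iff_one, hmem]
    simp
  · intro t
    have h1 := (hmem _).mp (hχ ((1 : ℂ) ⊗ₜ[ℤ] t))
    rw [map_sub, LinearMap.sub_apply, sub_eq_zero, hΦ] at h1
    rw [h1]
    simp
  · intro t ht
    apply hχ0
    apply hle
    rw [Submodule.mem_colon_singleton, Submodule.mem_bot, hsmul]
    change Φ ((1 : ℂ) ⊗ₜ[ℤ] t) w₀ = 0
    rw [hΦ, ht]

theorem exists_eigenvector_lift {V : Type*} [AddCommGroup V] [Module ℂ V] {R : Type*}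
    [CommRing R] [Module.Finite ℤ R] (φ : R →+* Module.End ℂ V) (hφ : Function.Injective φ)
    (I : Ideal R) (hI : I ≠ ⊤) :
    ∃ (v : V) (μ : R →+* integralClosure ℤ ℂ) (𝔪' : Ideal (integralClosure ℤ ℂ)),
      v ≠ 0 ∧ 𝔪'.IsMaximal ∧ (∀ t, φ t v = ((μ t : integralClosure ℤ ℂ) : ℂ) • v) ∧
        ∀ t ∈ I, μ t ∈ 𝔪' := by
  obtain ⟨𝔪, h𝔪, hI𝔪⟩ := Ideal.exists_le_maximal I hI
  have : 𝔪.IsPrime := h𝔪.isPrime
  obtain ⟨𝔭, h𝔭min, h𝔭𝔪⟩ := Ideal.exists_minimalPrimes_le (bot_le : (⊥ : Ideal R) ≤ 𝔪)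
  have : IsNoetherianRing R := IsNoetherianRing.of_finite ℤ R
  have hass : 𝔭 ∈ associatedPrimes R R := by
    apply Module.associatedPrimes.minimalPrimes_annihilator_subset_associatedPrimes R R
    rwa [Module.annihilator_eq_bot.mpr inferInstance]
  obtain ⟨h𝔭prime, t₀, ht₀⟩ := isAssociatedPrime_iff.mp hass
  have hmem𝔭 : ∀ t, t ∈ 𝔭 ↔ t * t₀ = 0 := by
    intro t
    rw [ht₀, Submodule.mem_colon_singleton, Submodule.mem_bot, smul_eq_mul]
  have ht₀ne : t₀ ≠ 0 := by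
    rintro rfl
    apply h𝔭prime.ne_top
    rw [Ideal.eq_top_iff_one, hmem𝔭]
    simp
  have hφt₀ : φ t₀ ≠ 0 := by
    rw [Ne, ← map_zero φ]
    exact fun h => ht₀ne (hφ h)
  obtain ⟨v₀, hv₀⟩ : ∃ v₀, φ t₀ v₀ ≠ 0 := by
    by_contra hcon
    push Not at hcon
    exact hφt₀ (LinearMap.ext hcon)
  obtain ⟨w, μ, hw, heig, hker⟩ := exists_common_eigenvector φ (φ t₀ v₀) hv₀
  have h𝔭ker : 𝔭 ≤ RingHom.ker μ := by
    intro t ht
    rw [RingHom.mem_ker]
    apply hker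
    rw [← Module.End.mul_apply, ← map_mul, (hmem𝔭 t).mp ht, map_zero, LinearMap.zero_apply]
  have hkereq : RingHom.ker μ = 𝔭 := by
    by_contra hne
    have hlt : 𝔭 < RingHom.ker μ := lt_of_le_of_ne h𝔭ker (Ne.symm hne)
    obtain ⟨x, hx, hx'⟩ := SetLike.exists_of_lt hlt
    have hlt2 := Ideal.comap_lt_comap_of_integral_mem_sdiff h𝔭ker ⟨hx, hx'⟩
      (Algebra.IsIntegral.isIntegral (R := ℤ) x)
    have hbot : Ideal.comap (algebraMap ℤ R) (RingHom.ker μ) = ⊥ := by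
      rw [eq_bot_iff]
      intro n hn
      rw [Ideal.mem_comap, RingHom.mem_ker] at hn
      simpa using hn
    rw [hbot] at hlt2
    exact not_lt_bot hlt2
  have hint : ∀ t, μ t ∈ integralClosure ℤ ℂ := by
    intro t
    exact (Algebra.IsIntegral.isIntegral (R := ℤ) t).map μ.toIntAlgHom
  let μ' : R →+* integralClosure ℤ ℂ := μ.codRestrict (integralClosure ℤ ℂ) hint
  have hμ' : ∀ t, ((μ' t : integralClosure ℤ ℂ) : ℂ) = μ t := fun _ => rfl
  let _ : Algebra R (integralClosure ℤ ℂ) := μ'.toAlgebra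
  have hInt : Algebra.IsIntegral R (integralClosure ℤ ℂ) := by
    constructor
    intro x
    exact (Algebra.IsIntegral.isIntegral (R := ℤ) x).tower_top
  have hkerle : RingHom.ker (algebraMap R (integralClosure ℤ ℂ)) ≤ 𝔪 := by
    intro t ht
    apply h𝔭𝔪
    rw [← hkereq, RingHom.mem_ker, ← hμ']
    rw [RingHom.mem_ker] at ht
    change μ' t = 0 at ht
    rw [ht]
    rfl
  obtain ⟨Q, hQmax, hQ⟩ := Ideal.exists_ideal_over_maximal_of_isIntegral
    (S := integralClosure ℤ ℂ) 𝔪 hkerle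
  refine ⟨w, μ', Q, hw, hQmax, fun t => by rw [hμ', heig], ?_⟩
  intro t ht
  have : t ∈ Ideal.comap (algebraMap R (integralClosure ℤ ℂ)) Q := by
    rw [hQ]
    exact hI𝔪 ht
  exact this

end Fermat.Agent.S49
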