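import Mathlib
import Fermat.Prelude.Def_FormalHecke_Eigensystem

set_option autoImplicit false

namespace Fermat.Agent.S49

theorem isRecursive_of_isEigensystem {R : Type*} [CommRing R] {e a : ℕ → R}
    (h : FormalHecke.IsEigensystem e a) : FormalHecke.IsRecursive e a := by
  obtain ⟨h1, hrec⟩ := h
  refine ⟨h1, ?_, ?_⟩
  · intro m
    induction m using Nat.strong_induction_on with
    | _ m ih =>
      intro n hmn
      rcases Nat.lt_or_ge m 2 with hm | hm
      · interval_cases m
        · have : n = 1 := by simpa using hmn
          subst this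
          simp [h1]
        · simp [h1]
      · obtain ⟨ℓ, hℓ, hℓm⟩ := Nat.exists_prime_and_dvd (show m ≠ 1 by omega)
        obtain ⟨m', rfl⟩ := hℓm
        have hm'pos : 0 < m' := by
          rcases Nat.eq_zero_or_pos m' with h0 | h0
          · subst h0; omega
          · exact h0
        have hlt : m' < ℓ * m' := by
          have := hℓ.two_le
          nlinarith
        have hcop' : m'.Coprime n := Nat.Coprime.coprime_mul_left hmn
        have hℓn : ¬ ℓ ∣ n := by
          intro hd
          have : ℓ ∣ Nat.gcd (ℓ * m') n := Nat.dvd_gcd (dvd_mul_right _ _) hd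
          rw [hmn] at this
          exact hℓ.one_lt.ne' (Nat.dvd_one.mp this)
        have e1 := hrec ℓ hℓ (m' * n)
        have e2 := hrec ℓ hℓ m'
        have hdvd : ℓ ∣ m' * n ↔ ℓ ∣ m' := by
          rw [hℓ.dvd_mul]
          tauto
        rw [mul_assoc]
        by_cases hd : ℓ ∣ m'
        · rw [if_pos (hdvd.mpr hd)] at e1
          rw [if_pos hd] at e2
          obtain ⟨m'', rfl⟩ := hd
          have hℓpos : 0 < ℓ := hℓ.pos
          have hm''lt : m'' < ℓ * (ℓ * m'') := by
            have := hℓ.two_le
            have : 0 < m'' := by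
              rcases Nat.eq_zero_or_pos m'' with h0 | h0
              · subst h0; omega
              · exact h0
            nlinarith
          have hcop'' : m''.Coprime n := Nat.Coprime.coprime_mul_left hcop'
          rw [mul_assoc, Nat.mul_div_cancel_left _ hℓpos, ih m'' hm''lt n hcop''] at e1
          rw [Nat.mul_div_cancel_left _ hℓpos] at e2
          rw [← mul_assoc ℓ m'' n, ih (ℓ * m'') hlt n hcop'] at e1
          linear_combination e1 - a n * e2
        · rw [if_neg (fun hh => hd (hdvd.mp hh))] at e1
          rw [if_neg hd] at e2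
          rw [ih m' hlt n hcop'] at e1
          linear_combination e1 - a n * e2
  · intro ℓ r hℓ
    have := hrec ℓ hℓ (ℓ ^ (r + 1))
    rw [if_pos (dvd_pow_self ℓ (Nat.succ_ne_zero r)), pow_succ ℓ r,
      Nat.mul_div_cancel _ hℓ.pos] at this
    rw [pow_succ ℓ (r + 1), pow_succ ℓ r, mul_comm (ℓ ^ r * ℓ) ℓ]
    linear_combination this

end Fermat.Agent.S49
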