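import Mathlib
import Fermat.Agent.S49.QCoeff
import Fermat.Prelude.Def_CuspForm_IntegralLattice
import Fermat.Prelude.Thm_CuspForm_intLattice_fg
import Fermat.Prelude.Thm_CuspForm_mem_intLattice_of_mem_heckeAlgebra

set_option autoImplicit false

namespace Fermat.Agent.S49

open CongruenceSubgroup ModularFormClass UpperHalfPlane

variable {N : ℕ} {k : ℤ}

theorem mem_intLattice_iff (f : CuspForm (Gamma0 N) k) :
    f ∈ CuspForm.intLattice N k ↔ ∀ n : ℕ, ∃ m : ℤ, qCoeff f n = (m : ℂ) := by
  constructor
  · intro hf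
    unfold CuspForm.intLattice at hf
    induction hf using Submodule.span_induction with
    | mem x hx => exact hx
    | zero =>
      intro n
      refine ⟨0, ?_⟩
      have := qCoeff_smul (0 : ℂ) (0 : CuspForm (Gamma0 N) k) n
      simpa using this
    | add x y _ _ hx hy =>
      intro n
      obtain ⟨a, ha⟩ := hx n
      obtain ⟨b, hb⟩ := hy n
      exact ⟨a + b, by rw [qCoeff_add, ha, hb]; push_cast; ring⟩
    | smul a x _ hx =>
      intro n
      obtain ⟨b, hb⟩ := hx n
      refine ⟨a * b, ?_⟩
      have : a • x = (a : ℂ) • x := by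
        rw [Int.cast_smul_eq_zsmul]
      rw [this, qCoeff_smul, hb]
      push_cast
      ring
  · intro h
    exact Submodule.subset_span h

theorem qIntegralSet_eq (N : ℕ) :
    CuspForm.qIntegralSet N = (CuspForm.intLattice N 2 : Set (CuspForm (Gamma0 N) 2)) := by
  ext f
  rw [SetLike.mem_coe, mem_intLattice_iff]
  simp only [CuspForm.qIntegralSet, Set.mem_ofPred_eq, Subring.mem_bot]
  constructor
  · intro h n
    obtain ⟨m, hm⟩ := h n
    exact ⟨m, hm.symm⟩
  · intro h n
    obtain ⟨m, hm⟩ := h n
    exact ⟨m, hm.symm⟩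

theorem heckeAlgebra_finite [NeZero N] (h : CuspForm.HasIntegralBasis N) :
    Module.Finite ℤ (CuspForm.heckeAlgebra N 2 ∅) := by
  obtain ⟨s, hs⟩ := CuspForm.intLattice_fg N 2
  have hnoeth : IsNoetherian ℤ (CuspForm.intLattice N 2) :=
    isNoetherian_of_fg_of_noetherian _ (CuspForm.intLattice_fg N 2)
  let Φ : (CuspForm.heckeAlgebra N 2 ∅) →ₗ[ℤ] (s → CuspForm.intLattice N 2) :=
    { toFun := fun t x => ⟨t.1 x.1, CuspForm.mem_intLattice_of_mem_heckeAlgebra (by norm_num) t.2
        (hs ▸ Submodule.subset_span x.2)⟩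
      map_add' := by
        intro t t'
        ext x
        simp
      map_smul' := by
        intro c t
        ext x
        simp }
  apply Module.Finite.of_injective Φ
  rw [← LinearMap.ker_eq_bot, LinearMap.ker_eq_bot']
  intro t ht
  apply Subtype.ext
  have h1 : ∀ x ∈ s, t.1 x = 0 := by
    intro x hx
    have := congrFun ht ⟨x, hx⟩
    exact congrArg Subtype.val this
  have h2 : ∀ x ∈ CuspForm.intLattice N 2, t.1 x = 0 := by
    intro x hx
    rw [← hs] at hx
    induction hx using Submodule.span_induction with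
    | mem x hx => exact h1 x hx
    | zero => simp
    | add x y _ _ hx hy => rw [map_add, hx, hy, add_zero]
    | smul a x _ hx => rw [map_zsmul, hx, smul_zero]
  apply LinearMap.ext_on (s := CuspForm.qIntegralSet N) h
  intro x hx
  rw [qIntegralSet_eq] at hx
  simpa using h2 x hx

end Fermat.Agent.S49
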