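import Fermat.Statements.S49
import Fermat.Agent.S49.Algebra
import Fermat.Agent.S49.Formal
import Fermat.Agent.S49.Lattice

set_option autoImplicit false
open CuspForm EisensteinWeightOne CongruenceSubgroup ModularFormClass

namespace Fermat.Agent.S49

theorem three_dvd_bridge (a : ℕ → ℤ) (n : ℕ) : (3 : ℤ) ∣ (bridgeProduct a).coeff n - a n := by
  let G : PowerSeries ℤ := PowerSeries.mk fun n => if n = 0 then 0 else 2 * sigmaChi n
  have hE : e1Chi3In ℤ = 1 + PowerSeries.C 3 * G := by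
    ext m
    simp only [e1Chi3In, e1Chi3, G, PowerSeries.coeff_one, PowerSeries.coeff_map,
      PowerSeries.coeff_mk, map_add, PowerSeries.coeff_C_mul]
    split_ifs
    · simp
    · simp; ring
  unfold bridgeProduct
  rw [hE, mul_add, mul_one, map_add, PowerSeries.coeff_mk, mul_left_comm, PowerSeries.coeff_C_mul]
  simp

theorem three_dvd_chi (ℓ : ℕ) : (3 : ℤ) ∣ (ℓ : ℤ) - chiNegThree ℓ := by
  unfold chiNegThree
  split_ifs <;> omega

theorem qCoeff_sub_smul {N : ℕ} {k : ℤ} (f g : CuspForm (Gamma0 N) k) (c : ℂ) (n : ℕ) :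
    qCoeff (⇑(f - c • g)) n = qCoeff f n - c * qCoeff g n := by
  have : f - c • g = f + (-c) • g := by
    rw [neg_smul, sub_eq_add_neg]
  rw [this, qCoeff_add, qCoeff_smul]
  ring

/-- vanishing of all coefficients from vanishing of the first one -/
theorem coeff_eq_zero_of_one {K : Type*} [Field K] {e c : ℕ → K}
    (hrec : ∀ ℓ : ℕ, ℓ.Prime → ∃ lam : K, ∀ n : ℕ,
      c (ℓ * n) + e ℓ * (if ℓ ∣ n then c (n / ℓ) else 0) = lam * c n)
    (h0 : c 0 = 0) (h1 : c 1 = 0) : ∀ n, c n = 0 := by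
  intro n
  induction n using Nat.strong_induction_on with
  | _ n ih =>
    rcases Nat.lt_or_ge n 2 with hn | hn
    · interval_cases n
      · exact h0
      · exact h1
    · obtain ⟨ℓ, hℓ, m, rfl⟩ := Nat.exists_prime_and_dvd (show n ≠ 1 by omega)
      obtain ⟨lam, hlam⟩ := hrec ℓ hℓ
      have hmpos : 0 < m := by
        rcases Nat.eq_zero_or_pos m with h | h
        · subst h; omega
        · exact h
      have hlt : m < ℓ * m := by
        have := hℓ.two_le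
        nlinarith
      have e1 := hlam m
      rw [ih m hlt] at e1
      by_cases hd : ℓ ∣ m
      · rw [if_pos hd, ih (m / ℓ) (lt_of_le_of_lt (Nat.div_le_self _ _) hlt)] at e1
        simpa using e1
      · rw [if_neg hd] at e1
        simpa using e1

theorem main {N : ℕ} [NeZero N] (h : CuspForm.HasIntegralBasis N) {a : ℕ → ℤ}
    (heig : FormalHecke.IsEigensystem
      (fun ℓ => if ℓ ∣ N then 0 else ((chiNegThree ℓ : ℤ) : ℤ)) a)
    (hreal : CuspForm.IsLatticeRealized N a) :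
    ∃ (f : CuspForm (Gamma0 N) 2) (_ : f.IsNormalizedEigenform)
      (𝔪' : Ideal (integralClosure ℤ ℂ)), 𝔪'.IsMaximal ∧
      ((3 : ℕ) : integralClosure ℤ ℂ) ∈ 𝔪' ∧
      ∀ (ℓ : ℕ) (_ : ℓ.Prime) (_ : ¬ ℓ ∣ N),
        ∃ c : integralClosure ℤ ℂ, (c : ℂ) = ModularFormClass.qCoeff f ℓ ∧
          c - (a ℓ : integralClosure ℤ ℂ) ∈ 𝔪' := by
  obtain ⟨f₀, -, af, haf, hcong⟩ := hreal
  have hafa : ∀ n, (3 : ℤ) ∣ af n - a n := fun n => by
    have := dvd_add (hcong n) (three_dvd_bridge a n)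
    simpa using this
  have hfin := heckeAlgebra_finite h
  let φ : (CuspForm.heckeAlgebra N 2 ∅) →+* Module.End ℂ (CuspForm (Gamma0 N) 2) :=
    (CuspForm.heckeAlgebra N 2 ∅).val.toRingHom
  have hφ : Function.Injective φ := Subtype.val_injective
  let I : Ideal (CuspForm.heckeAlgebra N 2 ∅) :=
    { carrier := {t | ∃ g ∈ CuspForm.intLattice N 2, φ t f₀ = (3 : ℂ) • g}
      zero_mem' := ⟨0, Submodule.zero_mem _, by simp⟩
      add_mem' := by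
        rintro t t' ⟨g, hg, hgt⟩ ⟨g', hg', hgt'⟩
        exact ⟨g + g', Submodule.add_mem _ hg hg', by
          rw [map_add, LinearMap.add_apply, hgt, hgt', smul_add]⟩
      smul_mem' := by
        rintro c t ⟨g, hg, hgt⟩
        refine ⟨φ c g, CuspForm.mem_intLattice_of_mem_heckeAlgebra (by norm_num) c.2 hg, ?_⟩
        rw [smul_eq_mul, map_mul, Module.End.mul_apply, hgt, map_smul] }
  have hImem : ∀ t, t ∈ I ↔ ∃ g ∈ CuspForm.intLattice N 2, φ t f₀ = (3 : ℂ) • g := fun _ => Iff.rfl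
  have hcrit : ∀ t, (∀ n, ∃ m : ℤ, qCoeff (φ t f₀) n = 3 * (m : ℂ)) → t ∈ I := by
    intro t ht
    refine ⟨(3 : ℂ)⁻¹ • φ t f₀, ?_, ?_⟩
    · rw [mem_intLattice_iff]
      intro n
      obtain ⟨m, hm⟩ := ht n
      exact ⟨m, by rw [qCoeff_smul, hm]; field_simp⟩
    · rw [smul_smul]
      simp
  have hI : I ≠ ⊤ := by
    intro htop
    have h1 : (1 : CuspForm.heckeAlgebra N 2 ∅) ∈ I := by rw [htop]; trivial
    obtain ⟨g, hg, hgt⟩ := h1
    rw [map_one, Module.End.one_apply] at hgt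
    obtain ⟨m, hm⟩ := (mem_intLattice_iff g).mp hg 1
    have h2 : (af 1 : ℂ) = 3 * (m : ℂ) := by
      rw [haf, hgt, qCoeff_smul, hm]
    have h3 : af 1 = 3 * m := by exact_mod_cast h2
    have h4 := hafa 1
    rw [heig.1, h3] at h4
    omega
  have h3I : ((3 : ℕ) : CuspForm.heckeAlgebra N 2 ∅) ∈ I := by
    refine ⟨f₀, (mem_intLattice_iff f₀).mpr (fun n => ⟨af n, (haf n).symm⟩), ?_⟩
    rw [map_natCast, Module.End.natCast_apply, ← Nat.cast_smul_eq_nsmul ℂ]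
    norm_num
  have hφint : ∀ (z : ℤ) (t : CuspForm.heckeAlgebra N 2 ∅),
      φ (t - (z : CuspForm.heckeAlgebra N 2 ∅)) f₀ = φ t f₀ - (z : ℂ) • f₀ := by
    intro z t
    rw [map_sub, map_intCast, LinearMap.sub_apply, Module.End.intCast_apply,
      Int.cast_smul_eq_zsmul]
  have hTI : ∀ (ℓ : ℕ) (hℓ : ℓ.Prime) (hℓN : ¬ ℓ ∣ N),
      (CuspForm.heckeAlgebra.T hℓ hℓN (Set.notMem_empty _) : CuspForm.heckeAlgebra N 2 ∅)
        - (a ℓ : CuspForm.heckeAlgebra N 2 ∅) ∈ I := by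
    intro ℓ hℓ hℓN
    apply hcrit
    intro n
    rw [hφint, qCoeff_sub_smul]
    change ∃ m : ℤ, qCoeff (CuspForm.heckeTLin 2 hℓ hℓN f₀) n - _ = _
    rw [qCoeff_heckeTLin, ← haf, ← haf, ← haf]
    have e1 := heig.2 ℓ hℓ n
    simp only [if_neg hℓN] at e1
    obtain ⟨k1, hk1⟩ := hafa (n * ℓ)
    obtain ⟨k2, hk2⟩ := hafa (n / ℓ)
    obtain ⟨k3, hk3⟩ := hafa n
    obtain ⟨k4, hk4⟩ := three_dvd_chi ℓ
    rw [mul_comm ℓ n] at e1
    by_cases hd : ℓ ∣ n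
    · rw [if_pos hd] at e1 ⊢
      refine ⟨k1 + ℓ * k2 + k4 * a (n / ℓ) - a ℓ * k3, ?_⟩
      have : af (n * ℓ) + (ℓ : ℤ) * af (n / ℓ) - a ℓ * af n
          = 3 * (k1 + ℓ * k2 + k4 * a (n / ℓ) - a ℓ * k3) := by
        linear_combination hk1 + (ℓ : ℤ) * hk2 - a ℓ * hk3 + a (n / ℓ) * hk4 + e1
      have h2 : ((af (n * ℓ) + (ℓ : ℤ) * af (n / ℓ) - a ℓ * af n : ℤ) : ℂ)
          = ((3 * (k1 + ℓ * k2 + k4 * a (n / ℓ) - a ℓ * k3) : ℤ) : ℂ) := by rw [this]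
      push_cast at h2
      have hz : ((ℓ : ℂ) ^ ((2 : ℤ) - 1)) = ℓ := by norm_num
      rw [hz]
      push_cast
      linear_combination h2
    · rw [if_neg hd] at e1 ⊢
      refine ⟨k1 - a ℓ * k3, ?_⟩
      have : af (n * ℓ) - a ℓ * af n = 3 * (k1 - a ℓ * k3) := by
        linear_combination hk1 - a ℓ * hk3 + e1
      have h2 : ((af (n * ℓ) - a ℓ * af n : ℤ) : ℂ) = ((3 * (k1 - a ℓ * k3) : ℤ) : ℂ) := by
        rw [this]
      push_cast at h2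
      push_cast
      linear_combination h2
  have hUI : ∀ (ℓ : ℕ) (hℓ : ℓ.Prime) (hℓN : ℓ ∣ N),
      (CuspForm.heckeAlgebra.U hℓ hℓN (Set.notMem_empty _) : CuspForm.heckeAlgebra N 2 ∅)
        - (a ℓ : CuspForm.heckeAlgebra N 2 ∅) ∈ I := by
    intro ℓ hℓ hℓN
    apply hcrit
    intro n
    rw [hφint, qCoeff_sub_smul]
    change ∃ m : ℤ, qCoeff (CuspForm.heckeULin 2 hℓN f₀) n - _ = _
    rw [qCoeff_heckeULin hℓ.ne_zero, ← haf, ← haf]
    have e1 := heig.2 ℓ hℓ n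
    simp only [if_pos hℓN, zero_mul, add_zero] at e1
    obtain ⟨k1, hk1⟩ := hafa (n * ℓ)
    obtain ⟨k3, hk3⟩ := hafa n
    rw [mul_comm ℓ n] at e1
    refine ⟨k1 - a ℓ * k3, ?_⟩
    have : af (n * ℓ) - a ℓ * af n = 3 * (k1 - a ℓ * k3) := by
      linear_combination hk1 - a ℓ * hk3 + e1
    have h2 : ((af (n * ℓ) - a ℓ * af n : ℤ) : ℂ) = ((3 * (k1 - a ℓ * k3) : ℤ) : ℂ) := by
      rw [this]
    push_cast at h2
    push_cast
    linear_combination h2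
  obtain ⟨v, μ, 𝔪', hv, hmax, hveig, hI𝔪'⟩ := exists_eigenvector_lift φ hφ I hI
  let e : ℕ → ℂ := fun ℓ => if ℓ ∣ N then 0 else (ℓ : ℂ)
  have hT : ∀ (ℓ : ℕ) (hℓ : ℓ.Prime) (hℓN : ¬ ℓ ∣ N) (n : ℕ),
      qCoeff v (ℓ * n) + e ℓ * (if ℓ ∣ n then qCoeff v (n / ℓ) else 0) =
        ((μ (CuspForm.heckeAlgebra.T hℓ hℓN (Set.notMem_empty _)) : integralClosure ℤ ℂ) : ℂ)
          * qCoeff v n := by
    intro ℓ hℓ hℓN n
    have h1 := congrArg (fun g : CuspForm (Gamma0 N) 2 => qCoeff g n)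
      (hveig (CuspForm.heckeAlgebra.T hℓ hℓN (Set.notMem_empty _)))
    rw [qCoeff_smul] at h1
    change qCoeff (CuspForm.heckeTLin 2 hℓ hℓN v) n = _ at h1
    rw [qCoeff_heckeTLin] at h1
    have hz : ((ℓ : ℂ) ^ ((2 : ℤ) - 1)) = ℓ := by norm_num
    rw [hz] at h1
    rw [← h1, mul_comm ℓ n]
    simp only [e, if_neg hℓN]
    split_ifs <;> simp
  have hU : ∀ (ℓ : ℕ) (hℓ : ℓ.Prime) (hℓN : ℓ ∣ N) (n : ℕ),
      qCoeff v (ℓ * n) + e ℓ * (if ℓ ∣ n then qCoeff v (n / ℓ) else 0) =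
        ((μ (CuspForm.heckeAlgebra.U hℓ hℓN (Set.notMem_empty _)) : integralClosure ℤ ℂ) : ℂ)
          * qCoeff v n := by
    intro ℓ hℓ hℓN n
    have h1 := congrArg (fun g : CuspForm (Gamma0 N) 2 => qCoeff g n)
      (hveig (CuspForm.heckeAlgebra.U hℓ hℓN (Set.notMem_empty _)))
    rw [qCoeff_smul] at h1
    change qCoeff (CuspForm.heckeULin 2 hℓN v) n = _ at h1
    rw [qCoeff_heckeULin hℓ.ne_zero] at h1
    rw [← h1, mul_comm ℓ n]
    simp only [e, if_pos hℓN]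
    simp
  have hrec : ∀ ℓ : ℕ, ℓ.Prime → ∃ lam : ℂ, ∀ n : ℕ,
      qCoeff v (ℓ * n) + e ℓ * (if ℓ ∣ n then qCoeff v (n / ℓ) else 0) = lam * qCoeff v n := by
    intro ℓ hℓ
    by_cases hℓN : ℓ ∣ N
    · exact ⟨_, hU ℓ hℓ hℓN⟩
    · exact ⟨_, hT ℓ hℓ hℓN⟩
  have hc1 : qCoeff v 1 ≠ 0 := by
    intro h1
    exact hv (eq_zero_of_qCoeff v (coeff_eq_zero_of_one hrec (qCoeff_zero_index v) h1))
  have hb : ∀ n, qCoeff (⇑((qCoeff v 1)⁻¹ • v)) n = (qCoeff v 1)⁻¹ * qCoeff v n :=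
    fun n => qCoeff_smul _ _ _
  have hb1 : qCoeff (⇑((qCoeff v 1)⁻¹ • v)) 1 = 1 := by
    rw [hb, inv_mul_cancel₀ hc1]
  have hlamEq : ∀ (ℓ : ℕ) (hℓ : ℓ.Prime) (lam : ℂ), (∀ n : ℕ,
      qCoeff v (ℓ * n) + e ℓ * (if ℓ ∣ n then qCoeff v (n / ℓ) else 0) = lam * qCoeff v n) →
      qCoeff (⇑((qCoeff v 1)⁻¹ • v)) ℓ = lam := by
    intro ℓ hℓ lam hlam
    have h1 := hlam 1
    rw [if_neg (fun hd => hℓ.one_lt.ne' (Nat.dvd_one.mp hd)), mul_zero, add_zero, mul_one] at h1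
    rw [hb, h1]
    field_simp
  have hEig : FormalHecke.IsEigensystem e (fun n => qCoeff (⇑((qCoeff v 1)⁻¹ • v)) n) := by
    refine ⟨hb1, ?_⟩
    intro ℓ hℓ n
    obtain ⟨lam, hlam⟩ := hrec ℓ hℓ
    simp only
    rw [hlamEq ℓ hℓ lam hlam]
    have hn := hlam n
    simp only [hb]
    split_ifs at hn ⊢ with hd
    · linear_combination (qCoeff v 1)⁻¹ * hn
    · linear_combination (qCoeff v 1)⁻¹ * hn
  obtain ⟨-, hmul, hpow⟩ := isRecursive_of_isEigensystem hEig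
  refine ⟨(qCoeff v 1)⁻¹ • v, ⟨hb1, hmul, ?_, ?_⟩, 𝔪', hmax, ?_, ?_⟩
  · intro p r hp hpN
    have := hpow p r hp
    simpa only [e, if_neg hpN] using this
  · intro p r hp hpN
    have := hpow p r hp
    simpa only [e, if_pos hpN, zero_mul, sub_zero] using this
  · have := hI𝔪' _ h3I
    rwa [map_natCast] at this
  · intro ℓ hℓ hℓN
    refine ⟨μ (CuspForm.heckeAlgebra.T hℓ hℓN (Set.notMem_empty _)), ?_, ?_⟩
    · exact (hlamEq ℓ hℓ _ (hT ℓ hℓ hℓN)).symm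
    · have := hI𝔪' _ (hTI ℓ hℓ hℓN)
      rwa [map_sub, map_intCast] at this

end Fermat.Agent.S49
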